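import Mathlib

/-!
# W8 (S30), package (TS-MOD), part 1: compatible sequences (helper18)

`J` is any abelian group, `p` a natural number.  `h18Tate p J` is the group of compatible
sequences `u : ℕ → J`, `u 0 = 0`, `p • u (n + 1) = u n` (the `p`-adic Tate module of `J`, as a
plain abelian group).  Every additive endomorphism of `J` acts on it componentwise
(`h18TateMap`, a ring homomorphism), and

* `h18Tate_pow_smul` : the `n`-th component is killed by `p ^ n`;
* `h18TateMap_eq_zero` : an endomorphism vanishing on the `p`-power torsion acts as `0`;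
* `h18Tate_smul_injective` : multiplication by `p` is injective;
* `h18Tate_exists_pow_smul` : a compatible sequence with `u m = 0` for `m ≤ n` is `p ^ n • u'`.
-/

set_option autoImplicit false

namespace Fermat.Agent.S30x.Mod.H18

variable (p : ℕ) (J : Type*) [AddCommGroup J]

/-- The group of compatible sequences `u 0 = 0`, `p • u (n + 1) = u n`. -/
def h18Tate : AddSubgroup (ℕ → J) where
  carrier := {u | u 0 = 0 ∧ ∀ n, p • u (n + 1) = u n}
  zero_mem' := ⟨rfl, fun n => by simp⟩
  add_mem' := by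
    rintro u v ⟨hu0, hu⟩ ⟨hv0, hv⟩
    refine ⟨by simp [hu0, hv0], fun n => ?_⟩
    simp only [Pi.add_apply, smul_add, hu n, hv n]
  neg_mem' := by
    rintro u ⟨hu0, hu⟩
    refine ⟨by simp [hu0], fun n => ?_⟩
    simp only [Pi.neg_apply, smul_neg, hu n]

variable {p J}

theorem h18_mem_tate {u : ℕ → J} : u ∈ h18Tate p J ↔ u 0 = 0 ∧ ∀ n, p • u (n + 1) = u n :=
  Iff.rfl

theorem h18Tate_zero (u : h18Tate p J) : (u : ℕ → J) 0 = 0 := u.2.1

theorem h18Tate_succ (u : h18Tate p J) (n : ℕ) : p • (u : ℕ → J) (n + 1) = (u : ℕ → J) n :=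
  u.2.2 n

/-- `p ^ k • u (n + k) = u n`. -/
theorem h18Tate_pow_smul_add (u : h18Tate p J) (n k : ℕ) :
    p ^ k • (u : ℕ → J) (n + k) = (u : ℕ → J) n := by
  induction k with
  | zero => simp
  | succ k ih =>
    rw [pow_succ, mul_smul, ← add_assoc, h18Tate_succ, ih]

/-- The `n`-th component is killed by `p ^ n`. -/
theorem h18Tate_pow_smul (u : h18Tate p J) (n : ℕ) : p ^ n • (u : ℕ → J) n = 0 := by
  have h := h18Tate_pow_smul_add u 0 n
  rw [zero_add] at h
  rw [h, h18Tate_zero]

/-- Every component is `p`-power torsion. -/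
theorem h18Tate_torsion (u : h18Tate p J) (n : ℕ) : ∃ k : ℕ, p ^ k • (u : ℕ → J) n = 0 :=
  ⟨n, h18Tate_pow_smul u n⟩

@[simp] theorem h18Tate_coe_add (u v : h18Tate p J) (n : ℕ) :
    ((u + v : h18Tate p J) : ℕ → J) n = (u : ℕ → J) n + (v : ℕ → J) n := rfl

@[simp] theorem h18Tate_coe_zero (n : ℕ) : ((0 : h18Tate p J) : ℕ → J) n = 0 := rfl

@[simp] theorem h18Tate_coe_neg (u : h18Tate p J) (n : ℕ) :
    ((-u : h18Tate p J) : ℕ → J) n = -(u : ℕ → J) n := rfl

@[simp] theorem h18Tate_coe_sub (u v : h18Tate p J) (n : ℕ) :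
    ((u - v : h18Tate p J) : ℕ → J) n = (u : ℕ → J) n - (v : ℕ → J) n := rfl

@[simp] theorem h18Tate_coe_nsmul (k : ℕ) (u : h18Tate p J) (n : ℕ) :
    ((k • u : h18Tate p J) : ℕ → J) n = k • (u : ℕ → J) n := rfl

@[simp] theorem h18Tate_coe_zsmul (k : ℤ) (u : h18Tate p J) (n : ℕ) :
    ((k • u : h18Tate p J) : ℕ → J) n = k • (u : ℕ → J) n := rfl

@[simp] theorem h18Tate_coe_sum {ι : Type*} (s : Finset ι) (u : ι → h18Tate p J) (n : ℕ) :
    ((∑ i ∈ s, u i : h18Tate p J) : ℕ → J) n = ∑ i ∈ s, (u i : ℕ → J) n := by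
  classical
  induction s using Finset.induction_on with
  | empty => simp
  | insert a s ha ih => rw [Finset.sum_insert ha, Finset.sum_insert ha, h18Tate_coe_add, ih]

theorem h18Tate_ext {u v : h18Tate p J} (h : ∀ n, (u : ℕ → J) n = (v : ℕ → J) n) : u = v :=
  Subtype.ext (funext h)

/-- Multiplication by `p` is injective on compatible sequences. -/
theorem h18Tate_smul_injective (u : h18Tate p J) (h : p • u = 0) : u = 0 := by
  refine h18Tate_ext fun n => ?_
  have h1 : ((p • u : h18Tate p J) : ℕ → J) (n + 1) = 0 := by rw [h]; rfl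
  rw [h18Tate_coe_nsmul, h18Tate_succ] at h1
  rw [h1]; rfl

/-- The shift `u ↦ (m ↦ u (m + n))` of a compatible sequence with `u n = 0`. -/
def h18Shift (u : h18Tate p J) (n : ℕ) (h : (u : ℕ → J) n = 0) : h18Tate p J :=
  ⟨fun m => (u : ℕ → J) (m + n), by
    refine ⟨by simpa using h, fun m => ?_⟩
    have := h18Tate_succ u (m + n)
    show p • (u : ℕ → J) (m + 1 + n) = (u : ℕ → J) (m + n)
    rw [show m + 1 + n = m + n + 1 by omega]
    exact this⟩

@[simp] theorem h18Shift_apply (u : h18Tate p J) (n : ℕ) (h : (u : ℕ → J) n = 0) (m : ℕ) :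
    ((h18Shift u n h : h18Tate p J) : ℕ → J) m = (u : ℕ → J) (m + n) := rfl

theorem h18_pow_smul_shift (u : h18Tate p J) (n : ℕ) (h : (u : ℕ → J) n = 0) :
    p ^ n • h18Shift u n h = u := by
  refine h18Tate_ext fun m => ?_
  rw [h18Tate_coe_nsmul, h18Shift_apply, h18Tate_pow_smul_add]

/-- A compatible sequence whose `n`-th component vanishes is divisible by `p ^ n`. -/
theorem h18Tate_exists_pow_smul (u : h18Tate p J) (n : ℕ) (h : (u : ℕ → J) n = 0) :
    ∃ u' : h18Tate p J, u = p ^ n • u' :=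
  ⟨h18Shift u n h, (h18_pow_smul_shift u n h).symm⟩

/-- If the `n`-th component vanishes, so do the lower ones. -/
theorem h18Tate_eq_zero_of_le (u : h18Tate p J) {m n : ℕ} (hmn : m ≤ n)
    (h : (u : ℕ → J) n = 0) : (u : ℕ → J) m = 0 := by
  obtain ⟨k, rfl⟩ := Nat.exists_eq_add_of_le hmn
  rw [← h18Tate_pow_smul_add u m k, h, smul_zero]

/-! ### Endomorphisms -/

/-- The componentwise action of an additive endomorphism of `J` on compatible sequences. -/
def h18TateMap : AddMonoid.End J →+* AddMonoid.End (h18Tate p J) where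
  toFun f :=
    { toFun := fun u => ⟨fun n => f ((u : ℕ → J) n), by
        refine ⟨?_, fun n => ?_⟩
        · show f ((u : ℕ → J) 0) = 0
          rw [h18Tate_zero]; exact map_zero f
        · show p • f ((u : ℕ → J) (n + 1)) = f ((u : ℕ → J) n)
          rw [← map_nsmul f, h18Tate_succ]⟩
      map_zero' := h18Tate_ext fun n => map_zero f
      map_add' := fun u v => h18Tate_ext fun n => map_add f _ _ }
  map_one' := rfl
  map_mul' _ _ := rfl
  map_zero' := rfl
  map_add' _ _ := rfl

@[simp] theorem h18TateMap_apply (f : AddMonoid.End J) (u : h18Tate p J) (n : ℕ) :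
    ((h18TateMap f u : h18Tate p J) : ℕ → J) n = f ((u : ℕ → J) n) := rfl

/-- An endomorphism vanishing on the `p`-power torsion acts as `0` on compatible sequences. -/
theorem h18TateMap_eq_zero (f : AddMonoid.End J)
    (hf : ∀ x : J, (∃ k : ℕ, p ^ k • x = 0) → f x = 0) :
    (h18TateMap f : AddMonoid.End (h18Tate p J)) = 0 := by
  refine AddMonoidHom.ext fun u => h18Tate_ext fun n => ?_
  show f ((u : ℕ → J) n) = 0
  exact hf _ (h18Tate_torsion u n)

/-- If `f` kills the `n`-th component of `u`, then `f u` is divisible by `p ^ n`. -/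
theorem h18TateMap_exists_pow_smul (f : AddMonoid.End J) (u : h18Tate p J) (n : ℕ)
    (h : f ((u : ℕ → J) n) = 0) : ∃ u' : h18Tate p J, h18TateMap f u = p ^ n • u' :=
  h18Tate_exists_pow_smul _ n h

end Fermat.Agent.S30x.Mod.H18
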