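import Mathlib
import Fermat.Agent.S30x.Mod.H18_Tate

/-!
# W8 (S30), package (TS-MOD), part 2: the separated module `M₀` (helper18)

`O` a commutative ring, `T = h18Tate p J`.  `h18M p J O := (O ⊗[ℤ] T) ⧸ ⨅ n, p ^ n • ⊤` is the
`p`-adically separated quotient of `O ⊗[ℤ] T`; every additive endomorphism of `J` acts on it
`O`-linearly (`h18Psi`, a ring homomorphism).

* `h18Psi_eq_zero`  (M2) an endomorphism vanishing on the `p`-power torsion of `J` acts as `0`;
* `h18Psi_mk_tmul_mem` / `h18Psi_mk_sum_mem`  (M3) congruence modulo `p ^ n`;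
* `h18M_smul_injective`  (M4) `M₀` has no `p`-torsion (for `O` flat over `ℤ`);
* `h18M_noZeroSMulDivisors` (M4) `M₀` is torsion free if every non-zero element of `O` divides
  a power of `p`;
* `h18M_separated`  (M5) `M₀` is `p`-adically separated.
-/

set_option autoImplicit false

open scoped TensorProduct

noncomputable section

namespace Fermat.Agent.S30x.Mod.H18

variable (p : ℕ) (J : Type*) [AddCommGroup J] (O : Type*) [CommRing O]

/-- `O ⊗[ℤ] T`. -/
abbrev h18Q : Type _ := O ⊗[ℤ] (h18Tate p J)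

/-- The submodule `p ^ n • ⊤` of a module. -/
def h18Div (M : Type*) [AddCommGroup M] [Module O M] (n : ℕ) : Submodule O M :=
  LinearMap.range (LinearMap.lsmul O M ((p : O) ^ n))

variable {p O} in
theorem h18_mem_div {M : Type*} [AddCommGroup M] [Module O M] {n : ℕ} {y : M} :
    y ∈ h18Div p O M n ↔ ∃ z : M, (p : O) ^ n • z = y := Iff.rfl

variable {p O} in
theorem h18_smul_mem_div {M : Type*} [AddCommGroup M] [Module O M] (n : ℕ) (z : M) :
    (p : O) ^ n • z ∈ h18Div p O M n := ⟨z, rfl⟩

variable {p O} in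
theorem h18_div_antitone {M : Type*} [AddCommGroup M] [Module O M] {m n : ℕ} (h : m ≤ n) :
    h18Div p O M n ≤ h18Div p O M m := by
  rintro y ⟨z, rfl⟩
  obtain ⟨k, rfl⟩ := Nat.exists_eq_add_of_le h
  refine ⟨(p : O) ^ k • z, ?_⟩
  show (p : O) ^ m • ((p : O) ^ k • z) = (p : O) ^ (m + k) • z
  rw [smul_smul, ← pow_add]

variable {p O} in
theorem h18_map_mem_div {M M' : Type*} [AddCommGroup M] [Module O M] [AddCommGroup M']
    [Module O M'] (f : M →ₗ[O] M') {n : ℕ} {y : M} (hy : y ∈ h18Div p O M n) :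
    f y ∈ h18Div p O M' n := by
  obtain ⟨z, rfl⟩ := hy
  exact ⟨f z, (map_smul f _ _).symm⟩

/-- The infinitely `p`-divisible elements. -/
def h18Dinf : Submodule O (h18Q p J O) := ⨅ n : ℕ, h18Div p O (h18Q p J O) n

variable {p J O} in
theorem h18_mem_dinf {y : h18Q p J O} :
    y ∈ h18Dinf p J O ↔ ∀ n : ℕ, ∃ z : h18Q p J O, (p : O) ^ n • z = y := by
  simp only [h18Dinf, Submodule.mem_iInf]
  exact Iff.rfl

/-- The separated quotient `M₀`. -/
abbrev h18M : Type _ := h18Q p J O ⧸ h18Dinf p J O

variable {p J O} in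
theorem h18_dinf_le_comap (f : Module.End O (h18Q p J O)) :
    h18Dinf p J O ≤ (h18Dinf p J O).comap f := by
  intro y hy
  rw [Submodule.mem_comap, h18_mem_dinf]
  intro n
  obtain ⟨z, rfl⟩ := h18_mem_dinf.mp hy n
  exact ⟨f z, (map_smul f _ _).symm⟩

/-- Every `O`-linear endomorphism of `O ⊗ T` descends to `M₀`. -/
def h18QuotEnd : Module.End O (h18Q p J O) →+* Module.End O (h18M p J O) where
  toFun f := (h18Dinf p J O).mapQ (h18Dinf p J O) f (h18_dinf_le_comap f)
  map_one' := by
    refine Submodule.linearMap_qext _ (LinearMap.ext fun y => ?_)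
    rfl
  map_mul' f g := by
    refine Submodule.linearMap_qext _ (LinearMap.ext fun y => ?_)
    rfl
  map_zero' := by
    refine Submodule.linearMap_qext _ (LinearMap.ext fun y => ?_)
    simp
  map_add' f g := by
    refine Submodule.linearMap_qext _ (LinearMap.ext fun y => ?_)
    simp

variable {p J O} in
@[simp] theorem h18QuotEnd_mk (f : Module.End O (h18Q p J O)) (y : h18Q p J O) :
    h18QuotEnd p J O f (Submodule.Quotient.mk y) = Submodule.Quotient.mk (f y) := rfl

/-- The action of the additive endomorphisms of `J` on `M₀`. -/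
def h18Psi : AddMonoid.End J →+* Module.End O (h18M p J O) :=
  (h18QuotEnd p J O).comp
    (((Module.End.baseChangeHom ℤ O (h18Tate p J)).toRingHom).comp
      (((addMonoidEndRingEquivInt (h18Tate p J)).toRingHom).comp (h18TateMap (p := p) (J := J))))

/-- The class of `r ⊗ u` in `M₀`. -/
def h18mk (r : O) (u : h18Tate p J) : h18M p J O :=
  Submodule.Quotient.mk (r ⊗ₜ[ℤ] u)

variable {p J O}

@[simp] theorem h18Psi_mk (f : AddMonoid.End J) (r : O) (u : h18Tate p J) :
    h18Psi p J O f (h18mk p J O r u) = h18mk p J O r (h18TateMap f u) := rfl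

theorem h18mk_add_left (r s : O) (u : h18Tate p J) :
    h18mk p J O (r + s) u = h18mk p J O r u + h18mk p J O s u := by
  simp only [h18mk, TensorProduct.add_tmul, Submodule.Quotient.mk_add]

theorem h18mk_add_right (r : O) (u v : h18Tate p J) :
    h18mk p J O r (u + v) = h18mk p J O r u + h18mk p J O r v := by
  simp only [h18mk, TensorProduct.tmul_add, Submodule.Quotient.mk_add]

theorem h18mk_smul (s r : O) (u : h18Tate p J) :
    h18mk p J O (s * r) u = s • h18mk p J O r u := by
  simp only [h18mk, ← Submodule.Quotient.mk_smul, TensorProduct.smul_tmul', smul_eq_mul]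

theorem h18mk_zsmul (k : ℤ) (r : O) (u : h18Tate p J) :
    h18mk p J O r (k • u) = (k : O) • h18mk p J O r u := by
  rw [← h18mk_smul]
  simp only [h18mk]
  rw [TensorProduct.tmul_smul, TensorProduct.smul_tmul', zsmul_eq_mul]

theorem h18mk_nsmul (k : ℕ) (r : O) (u : h18Tate p J) :
    h18mk p J O r (k • u) = (k : O) • h18mk p J O r u := by
  have := h18mk_zsmul (p := p) (J := J) (O := O) (k : ℤ) r u
  rw [natCast_zsmul, Int.cast_natCast] at this
  exact this

theorem h18mk_zero_right (r : O) : h18mk p J O r (0 : h18Tate p J) = 0 := by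
  simp only [h18mk, TensorProduct.tmul_zero, Submodule.Quotient.mk_zero]

theorem h18mk_sum_right {ι : Type*} (s : Finset ι) (r : O) (u : ι → h18Tate p J) :
    h18mk p J O r (∑ i ∈ s, u i) = ∑ i ∈ s, h18mk p J O r (u i) := by
  classical
  induction s using Finset.induction_on with
  | empty => simp [h18mk_zero_right]
  | insert a s ha ih => rw [Finset.sum_insert ha, Finset.sum_insert ha, h18mk_add_right, ih]

/-- Every element of `M₀` is a finite sum of classes `r ⊗ u`. -/
theorem h18M_induction {P : h18M p J O → Prop} (h0 : P 0)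
    (hmk : ∀ r u, P (h18mk p J O r u)) (hadd : ∀ y z, P y → P z → P (y + z))
    (y : h18M p J O) : P y := by
  obtain ⟨q, rfl⟩ := Submodule.Quotient.mk_surjective _ y
  induction q using TensorProduct.induction_on with
  | zero => simpa using h0
  | tmul r u => exact hmk r u
  | add a b ha hb => rw [Submodule.Quotient.mk_add]; exact hadd _ _ ha hb

/-- **(M2)** an endomorphism vanishing on the `p`-power torsion of `J` acts as `0` on `M₀`. -/
theorem h18Psi_eq_zero (f : AddMonoid.End J)
    (hf : ∀ x : J, (∃ k : ℕ, p ^ k • x = 0) → f x = 0) : h18Psi p J O f = 0 := by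
  refine LinearMap.ext fun y => ?_
  induction y using h18M_induction with
  | h0 => simp
  | hmk r u =>
    rw [h18Psi_mk, h18TateMap_eq_zero f hf]
    exact h18mk_zero_right r
  | hadd y z hy hz => rw [map_add, hy, hz]; simp

/-- **(M2')** two endomorphisms that agree on the `p`-power torsion act in the same way. -/
theorem h18Psi_congr (f g : AddMonoid.End J)
    (hfg : ∀ x : J, (∃ k : ℕ, p ^ k • x = 0) → f x = g x) : h18Psi p J O f = h18Psi p J O g := by
  rw [← sub_eq_zero, ← map_sub]
  refine h18Psi_eq_zero _ fun x hx => ?_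
  show f x - g x = 0
  rw [hfg x hx, sub_self]

/-- **(M3)** congruence: if `f` kills the `n`-th component of `u`, then `f (r ⊗ u)` is divisible
by `p ^ n`. -/
theorem h18Psi_mk_mem (f : AddMonoid.End J) (r : O) (u : h18Tate p J) (n : ℕ)
    (h : f ((u : ℕ → J) n) = 0) :
    h18Psi p J O f (h18mk p J O r u) ∈ h18Div p O (h18M p J O) n := by
  obtain ⟨u', hu'⟩ := h18TateMap_exists_pow_smul f u n h
  rw [h18Psi_mk, hu', h18mk_nsmul, Nat.cast_pow]
  exact h18_smul_mem_div n _

/-- **(M3)** congruence, for finite sums. -/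
theorem h18Psi_sum_mem {ι : Type*} (s : Finset ι) (f : AddMonoid.End J) (r : ι → O)
    (u : ι → h18Tate p J) (n : ℕ) (h : ∀ i ∈ s, f ((u i : ℕ → J) n) = 0) :
    h18Psi p J O f (∑ i ∈ s, h18mk p J O (r i) (u i)) ∈ h18Div p O (h18M p J O) n := by
  rw [map_sum]
  exact Submodule.sum_mem _ fun i hi => h18Psi_mk_mem f (r i) (u i) n (h i hi)

/-! ### Torsion and separatedness -/

/-- `O ⊗ T` has no `p`-torsion when `O` is flat over `ℤ`. -/
theorem h18Q_smul_injective [Module.Flat ℤ O] (y : h18Q p J O) (h : (p : O) • y = 0) : y = 0 := by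
  have hinj : Function.Injective
      (LinearMap.lTensor O ((p : ℤ) • (LinearMap.id : h18Tate p J →ₗ[ℤ] h18Tate p J))) := by
    refine Module.Flat.lTensor_preserves_injective_linearMap _ ?_
    intro u v huv
    have h1 : p • (u - v) = 0 := by
      have : (p : ℤ) • u = (p : ℤ) • v := huv
      rw [natCast_zsmul, natCast_zsmul] at this
      rw [smul_sub, this, sub_self]
    exact sub_eq_zero.mp (h18Tate_smul_injective _ h1)
  apply hinj
  rw [map_zero]
  have h2 : ∀ z : h18Q p J O,
      LinearMap.lTensor O ((p : ℤ) • (LinearMap.id : h18Tate p J →ₗ[ℤ] h18Tate p J)) z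
        = (p : O) • z := by
    intro z
    induction z using TensorProduct.induction_on with
    | zero => simp
    | tmul r u =>
      rw [LinearMap.lTensor_tmul, LinearMap.smul_apply, LinearMap.id_apply,
        TensorProduct.tmul_smul, TensorProduct.smul_tmul', TensorProduct.smul_tmul',
        zsmul_eq_mul, Int.cast_natCast, smul_eq_mul]
    | add a b ha hb => rw [map_add, ha, hb, smul_add]
  rw [h2, h]

theorem h18Q_pow_smul_injective [Module.Flat ℤ O] (n : ℕ) (y : h18Q p J O)
    (h : (p : O) ^ n • y = 0) : y = 0 := by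
  induction n with
  | zero => simpa using h
  | succ n ih =>
    apply ih
    apply h18Q_smul_injective
    rw [smul_smul, ← pow_succ']
    exact h

/-- If `p ^ k • y` is infinitely divisible, so is `y`. -/
theorem h18_mem_dinf_of_pow_smul [Module.Flat ℤ O] (k : ℕ) (y : h18Q p J O)
    (h : (p : O) ^ k • y ∈ h18Dinf p J O) : y ∈ h18Dinf p J O := by
  rw [h18_mem_dinf] at h ⊢
  intro n
  obtain ⟨z, hz⟩ := h (n + k)
  refine ⟨z, sub_eq_zero.mp (h18Q_pow_smul_injective k _ ?_)⟩
  rw [smul_sub, smul_smul, ← pow_add, add_comm k n, hz, sub_self]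

/-- **(M4)** `M₀` has no `p`-torsion. -/
theorem h18M_pow_smul_injective [Module.Flat ℤ O] (k : ℕ) (y : h18M p J O)
    (h : (p : O) ^ k • y = 0) : y = 0 := by
  obtain ⟨q, rfl⟩ := Submodule.Quotient.mk_surjective _ y
  rw [← Submodule.Quotient.mk_smul, Submodule.Quotient.mk_eq_zero] at h
  rw [Submodule.Quotient.mk_eq_zero]
  exact h18_mem_dinf_of_pow_smul k q h

theorem h18M_smul_injective [Module.Flat ℤ O] (y : h18M p J O) (h : (p : O) • y = 0) : y = 0 :=
  h18M_pow_smul_injective 1 y (by simpa using h)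

/-- **(M4)** `M₀` is torsion free over `O` if every non-zero element of `O` divides a power of
`p` (e.g. `O` a discrete valuation ring of characteristic `0` with `p` in the maximal ideal). -/
theorem h18M_smul_eq_zero [Module.Flat ℤ O]
    (hdvd : ∀ s : O, s ≠ 0 → ∃ (k : ℕ) (t : O), t * s = (p : O) ^ k)
    (s : O) (y : h18M p J O) (h : s • y = 0) : s = 0 ∨ y = 0 := by
  by_cases hs : s = 0
  · exact Or.inl hs
  · obtain ⟨k, t, ht⟩ := hdvd s hs
    refine Or.inr (h18M_pow_smul_injective k y ?_)
    rw [← ht, mul_smul, h, smul_zero]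

/-- **(M5)** `M₀` is `p`-adically separated. -/
theorem h18M_separated [Module.Flat ℤ O] (y : h18M p J O)
    (h : ∀ n : ℕ, y ∈ h18Div p O (h18M p J O) n) : y = 0 := by
  obtain ⟨q, rfl⟩ := Submodule.Quotient.mk_surjective _ y
  rw [Submodule.Quotient.mk_eq_zero, h18_mem_dinf]
  intro n
  obtain ⟨z, hz⟩ := h18_mem_div.mp (h n)
  obtain ⟨z', rfl⟩ := Submodule.Quotient.mk_surjective _ z
  rw [← Submodule.Quotient.mk_smul, Submodule.Quotient.eq] at hz
  obtain ⟨w, hw⟩ := h18_mem_dinf.mp hz n
  exact ⟨z' - w, by rw [smul_sub, hw]; abel⟩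

end Fermat.Agent.S30x.Mod.H18
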