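import Mathlib
import Fermat.Agent.S30x.Mod.H18_Mod

/-!
# W8 (S30), package (TS-MOD), part 3: the primitive vector (helper18)

`κ : Fin d → T` compatible sequences whose first components are independent modulo `p`,
`w : Fin d → O`.  The vector `x = ∑ j, w j ⊗ κ j` of `M₀`:

* `h18_dvd_of_vec_mem`   : `x ∈ p • M₀` forces `p ∣ w j` for all `j`;
* `h18_vec_not_mem`      : if some `w j` is not divisible by `p`, then `x ∉ p • M₀`;
* `h18_vec_ne_zero`      : and `x ≠ 0`;
* `h18_dvd_of_smul_vec_mem` : (valuation ring) `s • x ∈ p ^ (n + 1) • M₀` forces `p ^ n ∣ s`;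
* `h18Psi_vec`           : (M6) an integral matrix relation `A κ_j = ∑ i, t i j • κ_i` and an
  eigenvector `∑ j, t i j * w j = c * w i` give `A x = c • x`.
-/

set_option autoImplicit false

open scoped TensorProduct

noncomputable section

namespace Fermat.Agent.S30x.Mod.H18

variable {p : ℕ} {J : Type*} [AddCommGroup J] {O : Type*} [CommRing O]

variable (p J) in
/-- The `p`-torsion subgroup. -/
def h18Tors : AddSubgroup J where
  carrier := {z | p • z = 0}
  zero_mem' := smul_zero p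
  add_mem' := by
    intro a b ha hb
    change p • a = 0 at ha
    change p • b = 0 at hb
    change p • (a + b) = 0
    rw [smul_add, ha, hb, add_zero]
  neg_mem' := by
    intro a ha
    change p • a = 0 at ha
    change p • (-a) = 0
    rw [smul_neg, ha, neg_zero]

variable (p J) in
/-- The `ZMod p`-module structure of the `p`-torsion. -/
instance h18TorsModule : Module (ZMod p) (h18Tors p J) :=
  AddCommGroup.zmodModule (fun z => Subtype.ext (by
    rw [AddSubgroup.coe_nsmul]
    exact z.2))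

theorem h18_coe_zmod_smul [NeZero p] (a : ZMod p) (z : h18Tors p J) :
    ((a • z : h18Tors p J) : J) = a.val • (z : J) := by
  conv_lhs => rw [← ZMod.natCast_zmod_val a, Nat.cast_smul_eq_nsmul]
  rw [AddSubgroup.coe_nsmul]

/-- The first component of a compatible sequence, in the `p`-torsion. -/
def h18First : h18Tate p J →+ h18Tors p J where
  toFun u := ⟨(u : ℕ → J) 1, by
    have := h18Tate_pow_smul u 1
    rwa [pow_one] at this⟩
  map_zero' := rfl
  map_add' _ _ := rfl

@[simp] theorem h18First_coe (u : h18Tate p J) : ((h18First u : h18Tors p J) : J) = (u : ℕ → J) 1 :=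
  rfl

/-- Independence modulo `p` of the first components is linear independence over `ZMod p`. -/
theorem h18_linearIndependent_first [Fact p.Prime] {d : ℕ} (κ : Fin d → h18Tate p J)
    (hind : ∀ c : Fin d → ℤ, ∑ j, c j • (κ j : ℕ → J) 1 = 0 → ∀ j, (p : ℤ) ∣ c j) :
    LinearIndependent (ZMod p) (fun j => h18First (κ j)) := by
  have : NeZero p := ⟨(Fact.out : p.Prime).ne_zero⟩
  rw [Fintype.linearIndependent_iff]
  intro g hg j
  have h1 : ∑ j, (((g j).val : ℕ) : ℤ) • (κ j : ℕ → J) 1 = 0 := by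
    have h2 := congrArg (fun z : h18Tors p J => (z : J)) hg
    simp only [AddSubgroup.coe_zero] at h2
    rw [← h2, AddSubgroup.val_finsetSum]
    refine Finset.sum_congr rfl fun j _ => ?_
    rw [h18_coe_zmod_smul, natCast_zsmul, h18First_coe]
  have h3 := hind _ h1 j
  have h4 : p ∣ (g j).val := Int.natCast_dvd_natCast.1 h3
  have h5 : (g j).val = 0 := Nat.eq_zero_of_dvd_of_lt h4 (ZMod.val_lt (g j))
  exact (ZMod.val_eq_zero (g j)).1 h5

/-- Coordinate functionals on compatible sequences, with values in `ZMod p`. -/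
theorem h18_exists_coord [Fact p.Prime] {d : ℕ} (κ : Fin d → h18Tate p J)
    (hind : ∀ c : Fin d → ℤ, ∑ j, c j • (κ j : ℕ → J) 1 = 0 → ∀ j, (p : ℤ) ∣ c j)
    (i : Fin d) : ∃ φ : h18Tate p J →+ ZMod p, ∀ j, φ (κ j) = if j = i then 1 else 0 := by
  classical
  have hx := h18_linearIndependent_first κ hind
  have hker : LinearMap.ker (Fintype.linearCombination (ZMod p) fun j => h18First (κ j)) = ⊥ := by
    rw [LinearMap.ker_eq_bot]
    exact linearIndependent_iff_injective_fintypeLinearCombination.1 hx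
  obtain ⟨g, hg⟩ := LinearMap.exists_leftInverse_of_injective _ hker
  refine ⟨(((LinearMap.proj (R := ZMod p) (φ := fun _ : Fin d => ZMod p) i) ∘ₗ g).toAddMonoidHom).comp
    h18First, fun j => ?_⟩
  have h1 : Fintype.linearCombination (ZMod p) (fun j => h18First (κ j)) (Pi.single j 1)
      = h18First (κ j) := by
    simp [Fintype.linearCombination_apply_single]
  have h2 : g (h18First (κ j)) = Pi.single j 1 := by
    have := LinearMap.congr_fun hg (Pi.single j 1)
    simpa [h1] using this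
  show (LinearMap.proj (R := ZMod p) (φ := fun _ : Fin d => ZMod p) i) (g (h18First (κ j))) = _
  rw [h2, LinearMap.proj_apply, Pi.single_apply]
  by_cases h : i = j
  · subst h; simp
  · rw [if_neg h, if_neg (fun h' => h h'.symm)]

variable (p O) in
/-- The canonical additive map `ZMod p → O ⧸ (p)`. -/
def h18Iota : ZMod p →+ O ⧸ Ideal.span {(p : O)} :=
  ZMod.lift p ⟨Int.castAddHom (O ⧸ Ideal.span {(p : O)}), by
    show ((p : ℤ) : O ⧸ Ideal.span {(p : O)}) = 0
    rw [Int.cast_natCast, ← map_natCast (Ideal.Quotient.mk (Ideal.span {(p : O)})),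
      Ideal.Quotient.eq_zero_iff_mem]
    exact Ideal.mem_span_singleton_self _⟩

theorem h18Iota_one : h18Iota p O (1 : ZMod p) = 1 := by
  have h : h18Iota p O (((1 : ℤ) : ZMod p)) = ((1 : ℤ) : O ⧸ Ideal.span {(p : O)}) :=
    ZMod.lift_coe p _ 1
  simpa using h

variable (O) in
/-- The `O`-linear functional `O ⊗ T → O ⧸ (p)`, `r ⊗ u ↦ r * φ u`, attached to an additive
functional `φ : T → ZMod p`. -/
def h18Pair (φ : h18Tate p J →+ ZMod p) : h18Q p J O →ₗ[O] O ⧸ Ideal.span {(p : O)} :=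
  TensorProduct.AlgebraTensorModule.lift
    { toFun := fun r =>
        (((AddMonoidHom.mulLeft (Ideal.Quotient.mk (Ideal.span {(p : O)}) r)).comp
          ((h18Iota p O).comp φ)).toIntLinearMap)
      map_add' := fun r s => by
        refine LinearMap.ext fun u => ?_
        show Ideal.Quotient.mk (Ideal.span {(p : O)}) (r + s) * h18Iota p O (φ u)
          = Ideal.Quotient.mk (Ideal.span {(p : O)}) r * h18Iota p O (φ u)
            + Ideal.Quotient.mk (Ideal.span {(p : O)}) s * h18Iota p O (φ u)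
        rw [map_add, add_mul]
      map_smul' := fun s r => by
        refine LinearMap.ext fun u => ?_
        show Ideal.Quotient.mk (Ideal.span {(p : O)}) (s • r) * h18Iota p O (φ u)
          = s • (Ideal.Quotient.mk (Ideal.span {(p : O)}) r * h18Iota p O (φ u))
        rw [smul_eq_mul, map_mul, mul_assoc, Algebra.smul_def]
        rfl }

@[simp] theorem h18Pair_tmul (φ : h18Tate p J →+ ZMod p) (r : O) (u : h18Tate p J) :
    h18Pair O φ (r ⊗ₜ[ℤ] u)
      = Ideal.Quotient.mk (Ideal.span {(p : O)}) r * h18Iota p O (φ u) := rfl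

/-- The pairing kills everything divisible by `p`. -/
theorem h18Pair_eq_zero_of_mem (φ : h18Tate p J →+ ZMod p) (y : h18Q p J O)
    (hy : y ∈ h18Div p O (h18Q p J O) 1) : h18Pair O φ y = 0 := by
  obtain ⟨z, rfl⟩ := h18_mem_div.mp hy
  rw [pow_one, map_smul]
  have : ∀ a : O ⧸ Ideal.span {(p : O)}, (p : O) • a = 0 := by
    intro a
    obtain ⟨b, rfl⟩ := Ideal.Quotient.mk_surjective a
    rw [← Ideal.Quotient.mk_eq_mk, ← Submodule.Quotient.mk_smul,
      Submodule.Quotient.mk_eq_zero, smul_eq_mul]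
    exact Ideal.mul_mem_right _ _ (Ideal.mem_span_singleton_self _)
  exact this _

/-- **(M6)** if `x = ∑ w_j ⊗ κ_j` is divisible by `p` in `M₀`, then `p` divides every `w_j`. -/
theorem h18_dvd_of_vec_mem [Fact p.Prime] {d : ℕ} (κ : Fin d → h18Tate p J)
    (hind : ∀ c : Fin d → ℤ, ∑ j, c j • (κ j : ℕ → J) 1 = 0 → ∀ j, (p : ℤ) ∣ c j)
    (w : Fin d → O)
    (h : (∑ j, h18mk p J O (w j) (κ j)) ∈ h18Div p O (h18M p J O) 1) (i : Fin d) :
    (p : O) ∣ w i := by
  classical
  obtain ⟨φ, hφ⟩ := h18_exists_coord κ hind i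
  -- lift the divisibility to `O ⊗ T`
  have hQ : (∑ j, (w j) ⊗ₜ[ℤ] (κ j) : h18Q p J O) ∈ h18Div p O (h18Q p J O) 1 := by
    obtain ⟨z, hz⟩ := h18_mem_div.mp h
    obtain ⟨z', rfl⟩ := Submodule.Quotient.mk_surjective _ z
    have h1 : (Submodule.Quotient.mk (∑ j, (w j) ⊗ₜ[ℤ] (κ j)) : h18M p J O)
        = ∑ j, h18mk p J O (w j) (κ j) := by
      exact map_sum (Submodule.mkQ (h18Dinf p J O)) _ _
    rw [← h1, ← Submodule.Quotient.mk_smul, Submodule.Quotient.eq] at hz
    have h2 : (p : O) ^ 1 • z' - ∑ j, (w j) ⊗ₜ[ℤ] (κ j) ∈ h18Div p O (h18Q p J O) 1 := by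
      have := (h18_mem_dinf.mp hz) 1
      exact this
    have h3 : (∑ j, (w j) ⊗ₜ[ℤ] (κ j) : h18Q p J O)
        = (p : O) ^ 1 • z' - ((p : O) ^ 1 • z' - ∑ j, (w j) ⊗ₜ[ℤ] (κ j)) := by abel
    rw [h3]
    exact Submodule.sub_mem _ (h18_smul_mem_div 1 z') h2
  have h4 := h18Pair_eq_zero_of_mem φ _ hQ
  rw [map_sum] at h4
  simp only [h18Pair_tmul, hφ] at h4
  rw [Finset.sum_eq_single i] at h4
  · rw [if_pos rfl, h18Iota_one, mul_one, Ideal.Quotient.eq_zero_iff_mem,
      Ideal.mem_span_singleton] at h4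
    exact h4
  · intro j _ hj
    rw [if_neg hj, map_zero, mul_zero]
  · intro hi
    exact absurd (Finset.mem_univ i) hi

/-- **(M6)** the vector is not divisible by `p`. -/
theorem h18_vec_not_mem [Fact p.Prime] {d : ℕ} (κ : Fin d → h18Tate p J)
    (hind : ∀ c : Fin d → ℤ, ∑ j, c j • (κ j : ℕ → J) 1 = 0 → ∀ j, (p : ℤ) ∣ c j)
    (w : Fin d → O) (hw : ∃ j, ¬ (p : O) ∣ w j) :
    (∑ j, h18mk p J O (w j) (κ j)) ∉ h18Div p O (h18M p J O) 1 := by
  intro h
  obtain ⟨j, hj⟩ := hw
  exact hj (h18_dvd_of_vec_mem κ hind w h j)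

/-- **(M6)** the vector is non-zero. -/
theorem h18_vec_ne_zero [Fact p.Prime] {d : ℕ} (κ : Fin d → h18Tate p J)
    (hind : ∀ c : Fin d → ℤ, ∑ j, c j • (κ j : ℕ → J) 1 = 0 → ∀ j, (p : ℤ) ∣ c j)
    (w : Fin d → O) (hw : ∃ j, ¬ (p : O) ∣ w j) :
    (∑ j, h18mk p J O (w j) (κ j)) ≠ 0 := by
  intro h
  refine h18_vec_not_mem κ hind w hw ?_
  rw [h]
  exact Submodule.zero_mem _

/-- **(M6)** primitivity: if `s • x` is divisible by `p ^ (n + 1)` then `p ^ n ∣ s`
(`O` a valuation ring in which every non-zero element divides a power of `p`). -/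
theorem h18_dvd_of_smul_vec_mem [Fact p.Prime] [Module.Flat ℤ O]
    (htot : ∀ a b : O, a ∣ b ∨ b ∣ a)
    (hdvd : ∀ s : O, s ≠ 0 → ∃ (k : ℕ) (t : O), t * s = (p : O) ^ k)
    {d : ℕ} (κ : Fin d → h18Tate p J)
    (hind : ∀ c : Fin d → ℤ, ∑ j, c j • (κ j : ℕ → J) 1 = 0 → ∀ j, (p : ℤ) ∣ c j)
    (w : Fin d → O) (hw : ∃ j, ¬ (p : O) ∣ w j) (s : O) (n : ℕ)
    (h : s • (∑ j, h18mk p J O (w j) (κ j)) ∈ h18Div p O (h18M p J O) (n + 1)) :
    (p : O) ^ n ∣ s := by
  rcases htot ((p : O) ^ n) s with h1 | ⟨t, ht⟩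
  · exact h1
  · exfalso
    obtain ⟨z, hz⟩ := h18_mem_div.mp h
    set x : h18M p J O := ∑ j, h18mk p J O (w j) (κ j) with hx
    have h2 : s • (x - (p : O) • (t • z)) = 0 := by
      rw [smul_sub, ← hz, smul_smul, smul_smul, sub_eq_zero]
      congr 1
      rw [pow_succ, ht]
      ring
    rcases h18M_smul_eq_zero hdvd s _ h2 with hs | hx0
    · -- `s = 0` gives `p ^ n = 0`, impossible because `x ≠ 0` would be killed
      have h3 : (p : O) ^ n = 0 := by rw [ht, hs, zero_mul]
      have h4 : (p : O) ^ n • x = 0 := by rw [h3, zero_smul]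
      exact h18_vec_ne_zero κ hind w hw (h18M_pow_smul_injective n x h4)
    · refine h18_vec_not_mem κ hind w hw ?_
      rw [← hx, sub_eq_zero.mp hx0]
      exact ⟨t • z, by rw [pow_one]; rfl⟩

/-- **(M6)** eigenvector: an integral matrix relation for `A` on the `κ_j` and an eigenvector
`w` of the matrix give `A x = c • x`. -/
theorem h18Psi_vec {d : ℕ} (κ : Fin d → h18Tate p J) (w : Fin d → O) (A : AddMonoid.End J)
    (t : Matrix (Fin d) (Fin d) ℤ) (c : O)
    (hA : ∀ (j : Fin d) (n : ℕ), A ((κ j : ℕ → J) n) = ∑ i, t i j • (κ i : ℕ → J) n)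
    (hw : ∀ i, ∑ j, (t i j : O) * w j = c * w i) :
    h18Psi p J O A (∑ j, h18mk p J O (w j) (κ j)) = c • ∑ j, h18mk p J O (w j) (κ j) := by
  have h1 : ∀ j, h18TateMap A (κ j) = ∑ i, t i j • κ i := by
    intro j
    refine h18Tate_ext fun n => ?_
    rw [h18TateMap_apply, hA j n, h18Tate_coe_sum]
    rfl
  rw [map_sum, Finset.smul_sum]
  simp only [h18Psi_mk, h1, h18mk_sum_right, h18mk_zsmul]
  rw [Finset.sum_comm]
  refine Finset.sum_congr rfl fun i _ => ?_
  simp only [← h18mk_smul]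
  have h2 : ∀ (s : Finset (Fin d)) (f : Fin d → O),
      ∑ j ∈ s, h18mk p J O (f j) (κ i) = h18mk p J O (∑ j ∈ s, f j) (κ i) := by
    intro s f
    classical
    induction s using Finset.induction_on with
    | empty =>
      simp only [Finset.sum_empty, h18mk, TensorProduct.zero_tmul, Submodule.Quotient.mk_zero]
    | insert a s ha ih => rw [Finset.sum_insert ha, Finset.sum_insert ha, ih, h18mk_add_left]
  rw [h2, hw i]

end Fermat.Agent.S30x.Mod.H18
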