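import Mathlib
import Fermat.Agent.S30x.Mod.H18_Vec

/-!
# W8 (S30), package (TS-MOD), part 4: the case of a discrete valuation ring (helper18)

`O` a discrete valuation ring of characteristic `0` with `p` in its maximal ideal (the ring
`𝒪'` of S30).  The hypotheses `Module.Flat ℤ O`, `htot`, `hdvd` of parts 2 and 3 hold, so

* `h18M_torsionFree`  : `s • y = 0 → s = 0 ∨ y = 0` in `M₀`;
* `h18M_sep`          : `M₀` is `p`-adically separated;
* `h18_primitive`     : `s • x ∈ p ^ (n + 1) • M₀ → p ^ n ∣ s` for the vector `x = ∑ w_j ⊗ κ_j`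
  with some `w_j` a unit;
* `h18_vec_ne_zero'`  : `x ≠ 0`.
-/

set_option autoImplicit false

open scoped TensorProduct

noncomputable section

namespace Fermat.Agent.S30x.Mod.H18

variable {p : ℕ} {J : Type*} [AddCommGroup J] {O : Type*} [CommRing O] [IsDomain O]
  [IsDiscreteValuationRing O]

/-- In a discrete valuation ring with `p` in the maximal ideal, every non-zero element divides
a power of `p`. -/
theorem h18_dvr_hdvd (hp : (p : O) ∈ IsLocalRing.maximalIdeal O) (s : O) (hs : s ≠ 0) :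
    ∃ (k : ℕ) (t : O), t * s = (p : O) ^ k := by
  by_contra hcon
  have h1 : ∀ k : ℕ, (p : O) ^ k ∣ s := by
    intro k
    rcases ValuationRing.dvd_total ((p : O) ^ k) s with h | ⟨t, ht⟩
    · exact h
    · exact absurd ⟨k, t, by rw [ht, mul_comm]⟩ hcon
  have h2 : (Ideal.span {(p : O)}) ≠ ⊤ := by
    intro htop
    have h3 : (1 : O) ∈ IsLocalRing.maximalIdeal O := by
      have : Ideal.span {(p : O)} ≤ IsLocalRing.maximalIdeal O := by
        rw [Ideal.span_singleton_le_iff_mem]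
        exact hp
      exact this (htop ▸ Submodule.mem_top)
    exact (Ideal.ne_top_iff_one _).mp (IsLocalRing.maximalIdeal.isMaximal O).ne_top h3
  have h4 := Ideal.iInf_pow_eq_bot_of_isLocalRing (Ideal.span {(p : O)}) h2
  have h5 : s ∈ ⨅ i : ℕ, (Ideal.span {(p : O)}) ^ i := by
    rw [Ideal.mem_iInf]
    intro k
    rw [Ideal.span_singleton_pow, Ideal.mem_span_singleton]
    exact h1 k
  rw [h4, Ideal.mem_bot] at h5
  exact hs h5

theorem h18_dvr_htot (a b : O) : a ∣ b ∨ b ∣ a := ValuationRing.dvd_total a b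

/-- A unit is not divisible by an element of the maximal ideal. -/
theorem h18_not_dvd_of_isUnit (hp : (p : O) ∈ IsLocalRing.maximalIdeal O) {w : O}
    (hw : IsUnit w) : ¬ (p : O) ∣ w := by
  rintro ⟨t, rfl⟩
  have h1 : IsUnit (p : O) := isUnit_of_mul_isUnit_left hw
  exact (IsLocalRing.mem_maximalIdeal _).mp hp h1

variable [CharZero O]

/-- **(M4)** `M₀` is torsion free. -/
theorem h18M_torsionFree (hp : (p : O) ∈ IsLocalRing.maximalIdeal O) (s : O)
    (y : h18M p J O) (h : s • y = 0) : s = 0 ∨ y = 0 :=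
  h18M_smul_eq_zero (h18_dvr_hdvd hp) s y h

omit [IsDiscreteValuationRing O] in
/-- **(M5)** `M₀` is `p`-adically separated. -/
theorem h18M_sep (y : h18M p J O) (h : ∀ n : ℕ, ∃ z : h18M p J O, (p : O) ^ n • z = y) :
    y = 0 :=
  h18M_separated y h

omit [CharZero O] in
/-- **(M6)** the vector `x = ∑ w_j ⊗ κ_j` is non-zero. -/
theorem h18_vec_ne_zero' [Fact p.Prime] (hp : (p : O) ∈ IsLocalRing.maximalIdeal O) {d : ℕ}
    (κ : Fin d → h18Tate p J)
    (hind : ∀ c : Fin d → ℤ, ∑ j, c j • (κ j : ℕ → J) 1 = 0 → ∀ j, (p : ℤ) ∣ c j)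
    (w : Fin d → O) (hw : ∃ j, IsUnit (w j)) :
    (∑ j, h18mk p J O (w j) (κ j)) ≠ 0 :=
  h18_vec_ne_zero κ hind w (hw.imp fun _ hj => h18_not_dvd_of_isUnit hp hj)

/-- **(M6)** primitivity of the vector `x = ∑ w_j ⊗ κ_j`. -/
theorem h18_primitive [Fact p.Prime] (hp : (p : O) ∈ IsLocalRing.maximalIdeal O) {d : ℕ}
    (κ : Fin d → h18Tate p J)
    (hind : ∀ c : Fin d → ℤ, ∑ j, c j • (κ j : ℕ → J) 1 = 0 → ∀ j, (p : ℤ) ∣ c j)
    (w : Fin d → O) (hw : ∃ j, IsUnit (w j)) (s : O) (n : ℕ)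
    (h : ∃ z : h18M p J O, (p : O) ^ (n + 1) • z = s • ∑ j, h18mk p J O (w j) (κ j)) :
    (p : O) ^ n ∣ s :=
  h18_dvd_of_smul_vec_mem h18_dvr_htot (h18_dvr_hdvd hp) κ hind w
    (hw.imp fun _ hj => h18_not_dvd_of_isUnit hp hj) s n h

end Fermat.Agent.S30x.Mod.H18
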